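import Fermat.Agent.RED.Cusp.Count
import Fermat.Agent.RED.Gauss.FamilyExt

/-!
# RED/Cusp: hypothesis-free statements on `modularFunctionFieldFullC k N` in characteristic `ℓ ∤ N`
-/

set_option autoImplicit false
noncomputable section
open IntermediateField AlgebraicCurve ModularCurve
open Fermat.Agent.S24 Fermat.Agent.S28

namespace Fermat.Agent.RED.Cusp

theorem hasFamilyExt (N : ℕ) [NeZero N] : HasFamilyExt N := by
  obtain ⟨u, U, H, h1, h2, h3, h4, h5⟩ := exists_rootFamilyExt N
  exact ⟨u, U, H, zetaN N, by rw [zetaN_eq_zetaU]; exact isPrimitiveRoot_zetaU N, h1, h2, h3, h4, h5⟩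

variable (N : ℕ) [NeZero N] (k : Type*) [Field k]

/-- `j` is a separating parameter (any field receiving `NInt N`). -/
theorem isSepParam_jb_of_ringHom (π : NInt N →+* k) : IsSepParam k (jb k N) :=
  (hasFamilyExt N).isSepParam_jb π

theorem finrank_jb_of_ringHom (π : NInt N →+* k) :
    Module.finrank k⟮jb k N⟯ (Fb k N) = dedekindPsi N :=
  (hasFamilyExt N).finrank_jb π

variable [IsAlgClosed k] (ℓ : ℕ) [Fact ℓ.Prime] [CharP k ℓ]

/-- `j` is a separating parameter of `modularFunctionFieldFullC k N`. -/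
theorem isSepParam_jb (hℓN : ¬ ℓ ∣ N) : IsSepParam k (jb k N) :=
  (hasFamilyExt N).isSepParam_jb (exists_ringHom_NInt N ℓ hℓN k).some

/-- degree preservation: `[Fb_N : k(j)] = ψ(N)`. -/
theorem finrank_jb (hℓN : ¬ ℓ ∣ N) : Module.finrank k⟮jb k N⟯ (Fb k N) = dedekindPsi N :=
  (hasFamilyExt N).finrank_jb (exists_ringHom_NInt N ℓ hℓN k).some

/-- **the number of poles of `j` in characteristic `ℓ ∤ N` is `cuspCount N`.** -/
theorem card_poles_jb (hℓN : ¬ ℓ ∣ N) :
    Nat.card {v : Place k (Fb k N) // v.ord (jb k N) < 0} = cuspCount N :=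
  (hasFamilyExt N).card_poles_jb (exists_ringHom_NInt N ℓ hℓN k).some

end Fermat.Agent.RED.Cusp
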