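import Fermat.Agent.RED.Cusp.FbStruct
import Fermat.Agent.S20.CombCusps
import Fermat.Agent.S20.CombIndex
import Fermat.Agent.S28.Analytic.Conj

/-!
# RED/Cusp: degree, separability and number of cusps of `modularFunctionFieldFullC k N`
-/

set_option autoImplicit false
set_option linter.unusedSectionVars false
noncomputable section
open Polynomial IntermediateField AlgebraicCurve ModularCurve CongruenceSubgroup
open scoped MatrixGroups
open Fermat.Agent.S24 Fermat.Agent.S28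

namespace Fermat.Agent.RED.Cusp

section residue

variable (N : ℕ) [NeZero N] (ℓ : ℕ) [Fact ℓ.Prime]

/-- every algebraically closed field of characteristic `ℓ ∤ N` receives `NInt N`. -/
theorem exists_ringHom_NInt (hℓN : ¬ ℓ ∣ N) (k : Type*) [Field k] [IsAlgClosed k] [CharP k ℓ] :
    Nonempty (NInt N →+* k) := by
  have hne : Ideal.span {((ℓ : ℕ) : NInt N)} ≠ ⊤ := by
    rw [Ne, Ideal.span_singleton_eq_top]
    exact not_isUnit_natCast_NInt N ℓ hℓN
  obtain ⟨M, hM, hle⟩ := Ideal.exists_le_maximal _ hne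
  let _ : Field (NInt N ⧸ M) := Ideal.Quotient.field M
  have h0 : ((ℓ : ℕ) : NInt N ⧸ M) = 0 := by
    have : Ideal.Quotient.mk M ((ℓ : ℕ) : NInt N) = 0 :=
      Ideal.Quotient.eq_zero_iff_mem.2 (hle (Ideal.mem_span_singleton_self _))
    simpa using this
  have : CharP (NInt N ⧸ M) ℓ := (CharP.charP_iff_prime_eq_zero (Fact.out : ℓ.Prime)).2 h0
  let _ : Algebra (ZMod ℓ) (NInt N ⧸ M) := ZMod.algebra _ ℓ
  let _ : Algebra (ZMod ℓ) k := ZMod.algebra _ ℓ
  have halg : Algebra.IsAlgebraic (ZMod ℓ) (NInt N ⧸ M) := by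
    constructor
    intro z
    obtain ⟨x, rfl⟩ := Ideal.Quotient.mk_surjective z
    obtain ⟨m, hm⟩ := x.2
    have h1 : IsIntegral ℤ (((N : ℕ) : NInt N) ^ m * x) := by
      rw [← isIntegral_algHom_iff ((NInt N).subtype.toIntAlgHom) Subtype.val_injective]
      simpa using hm
    have h2 : IsIntegral ℤ (Ideal.Quotient.mk M (((N : ℕ) : NInt N) ^ m * x)) :=
      h1.map (Ideal.Quotient.mk M).toIntAlgHom
    have h3 : IsIntegral (ZMod ℓ) (Ideal.Quotient.mk M (((N : ℕ) : NInt N) ^ m * x)) :=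
      h2.tower_top
    have hu : IsUnit (Ideal.Quotient.mk M (((N : ℕ) : NInt N) ^ m)) :=
      ((natCast_isUnit_NInt N).pow m).map _
    have h4 : IsIntegral (ZMod ℓ) (Ideal.Quotient.mk M (((N : ℕ) : NInt N) ^ m))⁻¹ := by
      have : (Ideal.Quotient.mk M (((N : ℕ) : NInt N) ^ m))⁻¹ =
          algebraMap (ZMod ℓ) (NInt N ⧸ M) (((N : ZMod ℓ) ^ m)⁻¹) := by
        rw [map_inv₀, map_pow, map_pow, map_natCast, map_natCast]
      rw [this]
      exact isIntegral_algebraMap
    have h5 := h4.mul h3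
    rw [map_mul, inv_mul_cancel_left₀ hu.ne_zero] at h5
    exact h5.isAlgebraic
  exact ⟨(IsAlgClosed.lift (R := ZMod ℓ) (S := NInt N ⧸ M) (M := k)).toRingHom.comp
    (Ideal.Quotient.mk M)⟩

end residue

section series

variable {k : Type*} [Field k] (N : ℕ) [NeZero N]

theorem rot_qExpand (ζ : kˣ) (hζ : ζ ^ N = 1) (f : LaurentSeries k) :
    rot ζ (qExpand k N f) = qExpand k N f := by
  ext n
  rw [rot_coeff]
  by_cases hn : (N : ℤ) ∣ n
  · obtain ⟨m, rfl⟩ := hn
    rw [zpow_mul, zpow_natCast, hζ, one_zpow, Units.val_one, one_mul]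
  · rw [qExpand_coeff_of_not_dvd N _ hn, mul_zero]

theorem order_qExpand_jqModC : (qExpand k N (jqModC k)).order = -(N : ℤ) := by
  have hc : (qExpand k N (jqModC k)).coeff (-(N : ℤ)) = 1 := by
    have := qExpand_coeff_mul (R := k) N (jqModC k) (-1)
    rw [coeff_jqModC_neg_one] at this
    rw [← this]
    congr 1
    ring
  have hne : qExpand k N (jqModC k) ≠ 0 := by
    intro h
    rw [h] at hc
    simp at hc
  apply le_antisymm
  · exact HahnSeries.order_le_of_coeff_ne_zero (by rw [hc]; exact one_ne_zero)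
  · rw [HahnSeries.le_order_iff_forall hne]
    intro n hn
    by_cases hd : (N : ℤ) ∣ n
    · obtain ⟨m, rfl⟩ := hd
      rw [qExpand_coeff_mul]
      apply coeff_jqModC_of_lt
      have hN : (0 : ℤ) < N := by exact_mod_cast Nat.pos_of_ne_zero (NeZero.ne N)
      nlinarith
    · exact qExpand_coeff_of_not_dvd N _ hd

end series

/-- The output of `exists_rootFamilyExt`, as a hypothesis. -/
def HasFamilyExt (N : ℕ) [NeZero N] : Prop :=
  ∃ (u : LaurentSeries ℤ) (U : Q N → LaurentSeries ℂ) (H : ℕ → Q N → LaurentSeries ℂ) (ζ : ℂˣ),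
    IsPrimitiveRoot ζ N ∧ IsRootFamily N u (Q.base N) U H ∧
    IsRootFamilyExt N (Q.base N) U (H N) ∧
    (∀ c, U (ModularGroup.T⁻¹ • c) = rot ζ (U c)) ∧
    (∀ d, d ∣ N → ∀ c, H d (ModularGroup.T⁻¹ • c) = rot ζ (H d c)) ∧
    (∀ d, d ∣ N → ∀ c k, (H d c).coeff k ∈ NInt N)

section main

variable {N : ℕ} [NeZero N] {k : Type*} [Field k]

/-- the reduced family over `k`. -/
theorem HasFamilyExt.exists_red (hF : HasFamilyExt N) (π : NInt N →+* k) :
    ∃ (u : LaurentSeries ℤ) (Ub : Q N → LaurentSeries k) (Hb : ℕ → Q N → LaurentSeries k)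
      (ζb : kˣ), IsRedFamily N k u (Q.base N) Ub Hb ∧ IsPrimitiveRoot ζb N ∧
      (∀ c, Ub (ModularGroup.T⁻¹ • c) = rot ζb (Ub c)) ∧
      (∀ d, d ∣ N → ∀ c, Hb d (ModularGroup.T⁻¹ • c) = rot ζb (Hb d c)) := by
  obtain ⟨u, U, H, ζ, hζ, hR, hE, hrU, hrH, hint⟩ := hF
  obtain ⟨Ub, Hb, ζb, h⟩ := exists_redFamily hR hE hint (fun c => ModularGroup.T⁻¹ • c) ζ hζ
    hrU hrH π
  exact ⟨u, Ub, Hb, ζb, h⟩

/-- `j` is a separating parameter of the residue function field. -/
theorem HasFamilyExt.isSepParam_jb (hF : HasFamilyExt N) (π : NInt N →+* k) :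
    IsSepParam k (jb k N) := by
  obtain ⟨u, Ub, Hb, ζb, h, -⟩ := hF.exists_red π
  exact h.isSimpleData.isSepParam

/-- degree preservation. -/
theorem HasFamilyExt.finrank_jb (hF : HasFamilyExt N) (π : NInt N →+* k) :
    Module.finrank k⟮jb k N⟯ (Fb k N) = dedekindPsi N := by
  obtain ⟨u, Ub, Hb, ζb, h, -⟩ := hF.exists_red π
  rw [h.isSimpleData.finrank_eq, ← Nat.card_eq_fintype_card]
  exact Fermat.Agent.S20.card_quotient_Gamma0 N

/-- **The number of cusps in characteristic `ℓ`.** -/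
theorem HasFamilyExt.card_poles_jb [IsAlgClosed k] (hF : HasFamilyExt N) (π : NInt N →+* k) :
    Nat.card {v : Place k (Fb k N) // v.ord (jb k N) < 0} = cuspCount N := by
  obtain ⟨u, Ub, Hb, ζb, h, hζ, hrU, -⟩ := hF.exists_red π
  have key := h.isSimpleData.card_poles (G := SL(2, ℤ)) ModularGroup.T⁻¹ ζb N
    (Nat.pos_of_ne_zero (NeZero.ne N)) hζ (by rw [phiN_jb, order_qExpand_jqModC])
    (by rw [phiN_jb, rot_qExpand N ζb hζ.pow_eq_one]) hrU
  rw [key, Subgroup.zpowers_inv]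
  exact Fermat.Agent.S20.card_orbits_T N

end main

end Fermat.Agent.RED.Cusp
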