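import Fermat.Agent.RED.Cusp.Simple
import Fermat.Agent.S24.Cusp.RotCount
import Fermat.Agent.S24.FF.Glue
import Fermat.Agent.S24.Rot

/-!
# RED/Cusp: counting the poles of `j` through conjugate embeddings permuted by a rotation
-/

set_option autoImplicit false
set_option linter.unusedSectionVars false
noncomputable section
open Polynomial IntermediateField AlgebraicCurve
open Fermat.Agent.S24

namespace Fermat.Agent.RED.Cusp

/-- rotation counting lemma for a separating parameter, any characteristic. -/
theorem card_zeros_eq_orbits_of_rot_sep {K F : Type*} [Field K] [Field F] [Algebra K F]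
    [IsAlgClosed K] {y : F} (hy : IsSepParam K y)
    {L : Type*} [Field L]
    {X G : Type*} [Finite X] [Group G] [MulAction G X]
    (hcard : Nat.card X = Module.finrank K⟮y⟯ F)
    (σ : X → F →+* LaurentSeries L) (hσ : Function.Injective σ)
    (hK : ∀ i j (a : K), σ i (algebraMap K F a) = σ j (algebraMap K F a))
    (hKord : ∀ i (a : K), a ≠ 0 → (σ i (algebraMap K F a)).order = 0)
    (hσy : ∀ i j, σ i y = σ j y)
    (e0 : ℕ) (he0 : 0 < e0) (hwy : ∀ i, (σ i y).order = e0)
    (ζ : Lˣ) (hζ : IsPrimitiveRoot ζ e0)
    (g : G) (hg : ∀ i f, σ (g • i) f = rot ζ (σ i f)) :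
    Nat.card {v : Place K F // 0 < v.ord y} =
      Nat.card (MulAction.orbitRel.Quotient (Subgroup.zpowers g) X) :=
  have := hy.finite
  have := hy.separable
  S24.Cusp.card_zeros_eq_orbits_of_rot y hy.finite_zeros hy.sum_zeros hy.exists_place_eq
    (glue_hF23 hy.transcendental) hcard σ hσ hK hKord hσy e0 he0 hwy ζ hζ g hg

variable {k F : Type*} [Field k] [Field F] [Algebra k F]
  {ι : Type*} [Fintype ι] [DecidableEq ι]

theorem order_algebraMap_laurent (r : k) : (algebraMap k (LaurentSeries k) r).order = 0 := by
  rw [ModularCurve.algebraMap_laurentSeries_eq_single]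
  exact HahnSeries.order_C

theorem order_inv_laurent {f : LaurentSeries k} (hf : f ≠ 0) : (f⁻¹).order = -f.order := by
  have h1 := HahnSeries.order_mul hf (inv_ne_zero hf)
  rw [mul_inv_cancel₀ hf, HahnSeries.order_one] at h1
  omega

/-- **Poles of `j` = orbits of the rotation.** -/
theorem IsSimpleData.card_poles [IsAlgClosed k] {φ : F →ₐ[k] LaurentSeries k} {j a : F} {c₀ : ι}
    {x : ι → LaurentSeries k} (h : IsSimpleData φ j a c₀ x)
    {G : Type*} [Group G] [MulAction G ι] (g : G) (ζ : kˣ) (e0 : ℕ) (he0 : 0 < e0)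
    (hζ : IsPrimitiveRoot ζ e0) (hJord : (φ j).order = -(e0 : ℤ)) (hJrot : rot ζ (φ j) = φ j)
    (hrot : ∀ c, x (g • c) = rot ζ (x c)) :
    Nat.card {v : Place k F // v.ord j < 0} =
      Nat.card (MulAction.orbitRel.Quotient (Subgroup.zpowers g) ι) := by
  obtain ⟨σ, hσj, hσa⟩ := h.exists_embeddings
  have hJ0 : φ j ≠ 0 := by
    intro h0
    rw [h0, HahnSeries.order_zero] at hJord
    omega
  have key := card_zeros_eq_orbits_of_rot_sep h.isSepParam.inv (L := k) (X := ι) (G := G)
    (by rw [IsFiniteParam.finrank_inv, h.finrank_eq, Nat.card_eq_fintype_card])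
    (fun c => (σ c).toRingHom)
    (by
      intro c c' hcc'
      apply h.injective
      rw [← hσa, ← hσa]
      exact congrArg (fun s : F →+* LaurentSeries k => s a) hcc')
    (fun i i' r => by
      show σ i (algebraMap k F r) = σ i' (algebraMap k F r)
      rw [AlgHom.commutes, AlgHom.commutes])
    (fun i r _ => by
      show (σ i (algebraMap k F r)).order = 0
      rw [AlgHom.commutes, order_algebraMap_laurent])
    (fun i i' => by
      show σ i j⁻¹ = σ i' j⁻¹
      rw [map_inv₀, map_inv₀, hσj, hσj])
    e0 he0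
    (fun i => by
      show (σ i j⁻¹).order = e0
      rw [map_inv₀, hσj, order_inv_laurent hJ0, hJord, neg_neg])
    ζ hζ g
    (fun i f => by
      have : (σ (g • i)).toRingHom = (rotHom ζ).comp (σ i).toRingHom := by
        apply h.ringHom_ext
        · intro r
          show σ (g • i) (algebraMap k F r) = rot ζ (σ i (algebraMap k F r))
          rw [AlgHom.commutes, AlgHom.commutes, rot_algebraMap]
        · show σ (g • i) j = rot ζ (σ i j)
          rw [hσj, hσj, hJrot]
        · show σ (g • i) a = rot ζ (σ i a)
          rw [hσa, hσa, hrot]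
      exact congrArg (fun s : F →+* LaurentSeries k => s f) this)
  refine Eq.trans ?_ key
  apply Nat.card_congr
  apply Equiv.subtypeEquivRight
  intro v
  rw [Place.ord_inv]
  omega

end Fermat.Agent.RED.Cusp
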