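import Fermat.Agent.RED.Cusp.RedFamily
import Fermat.Agent.RED.Cusp.SimpleCount

/-!
# RED/Cusp: structure of the residue function field `modularFunctionFieldFullC k N`
-/

set_option autoImplicit false
set_option linter.unusedSectionVars false
noncomputable section
open Polynomial IntermediateField AlgebraicCurve ModularCurve
open Fermat.Agent.S24 Fermat.Agent.S28

namespace Fermat.Agent.RED.Cusp

/-- the residue function field. -/
abbrev Fb (k : Type*) [Field k] (N : ℕ) [NeZero N] : IntermediateField k (LaurentSeries k) :=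
  modularFunctionFieldFullC k N

/-- `j` as an element of `Fb`. -/
def jb (k : Type*) [Field k] (N : ℕ) [NeZero N] : Fb k N := ⟨jqModC k, jqModC_mem_full k N⟩

/-- the embedding `q ↦ t^N` of `Fb` in `k((t))`. -/
def phiN (k : Type*) [Field k] (N : ℕ) [NeZero N] : Fb k N →ₐ[k] LaurentSeries k :=
  (qExpandAlgHomC k N).comp (Fb k N).val

variable {N : ℕ} [NeZero N] {k : Type*} [Field k] {u : LaurentSeries ℤ} {ι : Type} [Fintype ι]
  [DecidableEq ι] {c₀ : ι} {Ub : ι → LaurentSeries k} {Hb : ℕ → ι → LaurentSeries k}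

theorem phiN_apply (f : Fb k N) : phiN k N f = qExpand k N (f : LaurentSeries k) := rfl

theorem phiN_jb : phiN k N (jb k N) = qExpand k N (jqModC k) := rfl

namespace IsRedFamily

variable (h : IsRedFamily N k u c₀ Ub Hb)
include h

theorem aeval_injective :
    Function.Injective (aeval (qExpand k N (jqModC k)) : k[X] → LaurentSeries k) :=
  (isMonicPole_qExpand_jqModC k N).aeval_injective

theorem indep (f : Fin (Fintype.card ι) → k[X])
    (hf : ∑ i, aeval (qExpand k N (jqModC k)) (f i) * Ub c₀ ^ (i : ℕ) = 0) : ∀ i, f i = 0 :=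
  indep_of_roots _ h.aeval_injective c₀ Ub h.U_ne h.order_neg h.charpoly_coeff h.prod_inv f hf

/-- the product of all the roots has order `0`. -/
theorem order_prod : (∏ c, Ub c).order = 0 := by
  obtain ⟨P, hP⟩ := h.prod_inv
  obtain ⟨P₀, hP₀⟩ := h.charpoly_coeff 0
  have h1 : (∏ c, (X - C (Ub c))).coeff 0 = (-1) ^ Fintype.card ι * ∏ c, Ub c := by
    rw [coeff_zero_eq_eval_zero, eval_prod, ← Finset.card_univ, ← Finset.prod_neg]
    exact Finset.prod_congr rfl (fun c _ => by simp)
  have h3 : (∏ c, Ub c) * ∏ c, (Ub c)⁻¹ = 1 := by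
    rw [← Finset.prod_mul_distrib]
    exact Finset.prod_eq_one (fun c _ => mul_inv_cancel₀ (h.U_ne c))
  have h4 : ((-1 : LaurentSeries k) ^ Fintype.card ι) * (-1) ^ Fintype.card ι = 1 := by
    rw [← mul_pow]; simp
  have h5 : ∏ c, Ub c = aeval (qExpand k N (jqModC k)) ((-1) ^ Fintype.card ι * P₀) := by
    rw [map_mul, ← hP₀, h1, map_pow, map_neg, map_one, ← mul_assoc, h4, one_mul]
  have h6 : ((-1) ^ Fintype.card ι * P₀) * P = 1 := by
    apply h.aeval_injective
    rw [map_mul, ← h5, ← hP, h3, map_one]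
  rw [h5]
  exact (order_aeval_of_isUnit _ (IsUnit.of_mul_eq_one _ h6)).2

theorem ne (c : ι) (hc : c ≠ c₀) : Ub c₀ ≠ Ub c := by
  intro heq
  have hall : ∀ c', (Ub c').order < 0 := by
    intro c'
    by_cases hc' : c' = c₀
    · rw [hc', heq]; exact h.order_neg c hc
    · exact h.order_neg c' hc'
  have h1 := order_multiset_prod_le (Finset.univ.val.map Ub) (by
    intro r hr
    obtain ⟨c', -, rfl⟩ := Multiset.mem_map.1 hr
    exact ⟨h.U_ne c', hall c'⟩)
  have h2 : (Finset.univ.val.map Ub).prod = ∏ c, Ub c := rfl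
  rw [h2, h.order_prod, Multiset.card_map] at h1
  have h3 : 0 < Multiset.card (Finset.univ : Finset ι).val := by
    rw [Finset.card_val, Finset.card_univ]
    exact Fintype.card_pos_iff.2 ⟨c₀⟩
  have := h1.2
  omega

theorem coeff_H_c₀ : (Hb N c₀).coeff (-((N : ℤ) ^ 2)) = 1 := by
  rw [h.H_c₀ N dvd_rfl, show -((N : ℤ) ^ 2) = (N : ℤ) * ((N : ℤ) * (-1)) by ring,
    qExpand_coeff_mul, qExpand_coeff_mul, coeff_jqModC_neg_one]

theorem H_ne (c : ι) (hc : c ≠ c₀) : Hb N c₀ ≠ Hb N c := by
  intro heq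
  have h1 := h.coeff_H_c₀
  rw [heq, h.H_top c hc] at h1
  exact zero_ne_one h1

omit h in
theorem aeval_mem_map (P : k[X]) :
    aeval (qExpand k N (jqModC k)) P ∈ (Fb k N).map (qExpandAlgHomC k N) := by
  refine ⟨aeval (jqModC k) P, ?_, ?_⟩
  · have : aeval (jqModC k) P = ((aeval (jb k N) P : Fb k N) : LaurentSeries k) := by
      rw [← IntermediateField.coe_val, ← aeval_algHom_apply]
      rfl
    rw [this]
    exact Subtype.mem _
  · show qExpandAlgHomC k N (aeval (jqModC k) P) = _
    rw [← aeval_algHom_apply]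
    rfl

/-- `U c₀` lies in the image of `Fb`. -/
theorem U_c₀_mem_map : Ub c₀ ∈ (Fb k N).map (qExpandAlgHomC k N) := by
  refine mem_of_lagrange ((Fb k N).map (qExpandAlgHomC k N)).toSubfield (Hb N) Ub c₀ h.H_ne ?_ ?_ ?_
  · rw [h.H_c₀ N dvd_rfl]
    exact ⟨qExpand k N (jqModC k), jqModCd_mem_full k N dvd_rfl, rfl⟩
  · intro i
    obtain ⟨P, hP⟩ := h.charpolyH_coeff i
    rw [hP]; exact aeval_mem_map P
  · intro i
    obtain ⟨P, hP⟩ := h.lagrangeU_coeff i
    rw [hP]; exact aeval_mem_map P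

/-- the reduction of the unit `u` lies in the residue function field. -/
theorem castLS_mem : castLS k u ∈ Fb k N := by
  obtain ⟨y, hy, hyU⟩ := h.U_c₀_mem_map
  have h1 : qExpand k N y = qExpand k N (castLS k u) := by
    rw [← h.U_c₀]; exact hyU
  rw [← qExpand_injective N h1]
  exact hy

/-- the reduction of `u` as an element of `Fb`. -/
def ub : Fb k N := ⟨castLS k u, h.castLS_mem⟩

theorem phiN_ub : phiN k N h.ub = Ub c₀ := h.U_c₀.symm

theorem H_mem_adjoin (d : ℕ) (hd : d ∣ N) :
    Hb d c₀ ∈ IntermediateField.adjoin k {qExpand k N (jqModC k), Ub c₀} := by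
  have hJ : ∀ P : k[X], aeval (qExpand k N (jqModC k)) P ∈
      IntermediateField.adjoin k {qExpand k N (jqModC k), Ub c₀} := by
    intro P
    have h1 : qExpand k N (jqModC k) ∈
        IntermediateField.adjoin k {qExpand k N (jqModC k), Ub c₀} :=
      subset_adjoin k _ (Set.mem_insert _ _)
    have h2 : Algebra.adjoin k {qExpand k N (jqModC k)} ≤
        (IntermediateField.adjoin k {qExpand k N (jqModC k), Ub c₀}).toSubalgebra :=
      Algebra.adjoin_le (Set.singleton_subset_iff.2 h1)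
    exact h2 (aeval_mem_adjoin_singleton _ _)
  refine mem_of_lagrange
    (IntermediateField.adjoin k {qExpand k N (jqModC k), Ub c₀}).toSubfield Ub (Hb d) c₀ h.ne
    ?_ ?_ ?_
  · exact subset_adjoin k _ (Set.mem_insert_of_mem _ rfl)
  · intro i
    obtain ⟨P, hP⟩ := h.charpoly_coeff i
    rw [hP]; exact hJ P
  · intro i
    obtain ⟨P, hP⟩ := h.lagrange_coeff d hd i
    rw [hP]; exact hJ P

theorem map_adjoin :
    (IntermediateField.adjoin k {jb k N, h.ub}).map (phiN k N) =
      IntermediateField.adjoin k {qExpand k N (jqModC k), Ub c₀} := by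
  rw [adjoin_map, Set.image_pair, phiN_jb, h.phiN_ub]

theorem phiN_mem_adjoin (f : Fb k N) :
    phiN k N f ∈ IntermediateField.adjoin k {qExpand k N (jqModC k), Ub c₀} := by
  have h1 : (Fb k N).map (qExpandAlgHomC k N) ≤
      IntermediateField.adjoin k {qExpand k N (jqModC k), Ub c₀} := by
    rw [Fb, modularFunctionFieldFullC, adjoin_map, adjoin_le_iff]
    rintro _ ⟨y, ⟨d, hne, hd, rfl⟩, rfl⟩
    have := hne
    show qExpand k N (qExpand k d (jqModC k)) ∈ _
    rw [← h.H_c₀ d hd]
    exact h.H_mem_adjoin d hd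
  exact h1 ⟨f, f.2, rfl⟩

theorem adjoin_eq_top : IntermediateField.adjoin k {jb k N, h.ub} = ⊤ := by
  rw [eq_top_iff]
  intro f _
  have h1 := h.phiN_mem_adjoin f
  rw [← h.map_adjoin] at h1
  obtain ⟨f', hf', hff'⟩ := h1
  have : f' = f := (phiN k N).toRingHom.injective hff'
  rw [← this]
  exact hf'

/-- **Structure of the residue function field.** -/
theorem isSimpleData : IsSimpleData (phiN k N) (jb k N) h.ub c₀ Ub where
  x_c₀ := h.phiN_ub.symm
  ne := h.ne
  coeff := h.charpoly_coeff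
  indep := h.indep
  gen := h.adjoin_eq_top

end IsRedFamily

end Fermat.Agent.RED.Cusp
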