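import Mathlib

/-!
# RED/Cusp: Lagrange interpolation membership lemma
-/

set_option autoImplicit false
open Polynomial

namespace Fermat.Agent.RED.Cusp

variable {E : Type*} [Field E] {ι : Type*} [Fintype ι] [DecidableEq ι]

theorem eval_mem_of_coeff_mem (S : Subfield E) (p : E[X]) (hp : ∀ i, p.coeff i ∈ S) {a : E}
    (ha : a ∈ S) : eval a p ∈ S := by
  rw [eval_eq_sum_range]
  exact S.sum_mem fun i _ => S.mul_mem (hp i) (S.pow_mem ha i)

theorem eval_lagrange (x y : ι → E) (c₀ : ι) :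
    eval (x c₀) (∑ c, C (y c) * ∏ c' ∈ Finset.univ.erase c, (X - C (x c'))) =
      y c₀ * ∏ c' ∈ Finset.univ.erase c₀, (x c₀ - x c') := by
  rw [eval_finsetSum, Finset.sum_eq_single c₀]
  · rw [eval_mul, eval_C, eval_prod]
    simp
  · intro c _ hc
    rw [eval_mul, eval_prod]
    rw [Finset.prod_eq_zero (Finset.mem_erase.2 ⟨Ne.symm hc, Finset.mem_univ c₀⟩) (by simp),
      mul_zero]
  · intro h; exact absurd (Finset.mem_univ _) h

theorem derivative_prod_X_sub_C (x : ι → E) :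
    derivative (∏ c, (X - C (x c))) =
      ∑ c, C (1 : E) * ∏ c' ∈ Finset.univ.erase c, (X - C (x c')) := by
  rw [derivative_prod_finset]
  exact Finset.sum_congr rfl fun c _ => by simp

theorem eval_derivative_prod_X_sub_C (x : ι → E) (c₀ : ι) :
    eval (x c₀) (derivative (∏ c, (X - C (x c)))) =
      ∏ c' ∈ Finset.univ.erase c₀, (x c₀ - x c') := by
  rw [derivative_prod_X_sub_C, eval_lagrange (fun c => x c) (fun _ => 1) c₀, one_mul]

theorem prod_erase_ne_zero (x : ι → E) (c₀ : ι) (hx : ∀ c, c ≠ c₀ → x c₀ ≠ x c) :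
    ∏ c' ∈ Finset.univ.erase c₀, (x c₀ - x c') ≠ 0 :=
  Finset.prod_ne_zero_iff.2 fun c hc => sub_ne_zero.2 (hx c (Finset.ne_of_mem_erase hc))

/-- **Lagrange membership.** -/
theorem mem_of_lagrange (S : Subfield E) (x y : ι → E) (c₀ : ι)
    (hx : ∀ c, c ≠ c₀ → x c₀ ≠ x c) (hx₀ : x c₀ ∈ S)
    (hΨ : ∀ i, (∏ c, (X - C (x c))).coeff i ∈ S)
    (hΛ : ∀ i, (∑ c, C (y c) * ∏ c' ∈ Finset.univ.erase c, (X - C (x c'))).coeff i ∈ S) :
    y c₀ ∈ S := by
  have h1 := eval_mem_of_coeff_mem S _ hΛ hx₀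
  rw [eval_lagrange] at h1
  have h2 : eval (x c₀) (derivative (∏ c, (X - C (x c)))) ∈ S := by
    refine eval_mem_of_coeff_mem S _ (fun i => ?_) hx₀
    rw [coeff_derivative]
    exact S.mul_mem (hΨ _) (S.add_mem (natCast_mem S i) S.one_mem)
  rw [eval_derivative_prod_X_sub_C] at h2
  have h3 := S.div_mem h1 h2
  rwa [mul_div_cancel_right₀ _ (prod_erase_ne_zero x c₀ hx)] at h3

end Fermat.Agent.RED.Cusp
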