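import Fermat.Agent.RED.Gauss.FamilyDefs
import Fermat.Agent.S28.Irr
import Fermat.Agent.S24.Rot

/-!
# RED/Cusp: reduction of the (extended) root family modulo a ring hom `NInt N →+* k`
-/

set_option autoImplicit false
noncomputable section
open Polynomial ModularCurve
open Fermat.Agent.S28 Fermat.Agent.S24

namespace Fermat.Agent.RED.Cusp

/-- The reduced root family in `k((t))`, `t = q^{1/N}`. -/
structure IsRedFamily (N : ℕ) [NeZero N] (k : Type*) [Field k] (u : LaurentSeries ℤ) {ι : Type}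
    [Fintype ι] [DecidableEq ι] (c₀ : ι) (Ub : ι → LaurentSeries k)
    (Hb : ℕ → ι → LaurentSeries k) : Prop where
  U_c₀ : Ub c₀ = qExpand k N (castLS k u)
  U_ne : ∀ c, Ub c ≠ 0
  order_neg : ∀ c, c ≠ c₀ → (Ub c).order < 0
  charpoly_coeff : ∀ i, ∃ P : k[X],
    (∏ c, (X - C (Ub c))).coeff i = aeval (qExpand k N (jqModC k)) P
  prod_inv : ∃ P : k[X], ∏ c, (Ub c)⁻¹ = aeval (qExpand k N (jqModC k)) P
  H_c₀ : ∀ (d : ℕ) [NeZero d], d ∣ N → Hb d c₀ = qExpand k N (qExpand k d (jqModC k))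
  lagrange_coeff : ∀ d, d ∣ N → ∀ i, ∃ P : k[X],
    (∑ c, C (Hb d c) * ∏ c' ∈ Finset.univ.erase c, (X - C (Ub c'))).coeff i =
      aeval (qExpand k N (jqModC k)) P
  H_top : ∀ c, c ≠ c₀ → (Hb N c).coeff (-((N : ℤ) ^ 2)) = 0
  charpolyH_coeff : ∀ i, ∃ P : k[X],
    (∏ c, (X - C (Hb N c))).coeff i = aeval (qExpand k N (jqModC k)) P
  lagrangeU_coeff : ∀ i, ∃ P : k[X],
    (∑ c, C (Ub c) * ∏ c' ∈ Finset.univ.erase c, (X - C (Hb N c'))).coeff i =
      aeval (qExpand k N (jqModC k)) P

theorem map_lagrange {A B ι : Type*} [CommRing A] [CommRing B] [Fintype ι] [DecidableEq ι]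
    (f : A →+* B) (x y : ι → A) :
    (∑ c, C (y c) * ∏ c' ∈ Finset.univ.erase c, (X - C (x c'))).map f =
      ∑ c, C (f (y c)) * ∏ c' ∈ Finset.univ.erase c, (X - C (f (x c'))) := by
  rw [Polynomial.map_sum]
  exact Finset.sum_congr rfl fun c _ => by rw [Polynomial.map_mul, map_C, map_prod_X_sub_C]

/-- a root of unity is a unit of `NInt N`. -/
theorem exists_unit_NInt (N : ℕ) [NeZero N] (ζ : ℂˣ) (hζ : ζ ^ N = 1) :
    ∃ z : (NInt N)ˣ, ((z : NInt N) : ℂ) = (ζ : ℂ) := by
  have hpos : 0 < N := Nat.pos_of_ne_zero (NeZero.ne N)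
  have h1 : (ζ : ℂ) ^ N = 1 := by
    have := congrArg (fun x : ℂˣ => (x : ℂ)) hζ
    simpa using this
  have hi : IsIntegral ℤ (ζ : ℂ) := IsIntegral.of_pow hpos (by rw [h1]; exact isIntegral_one)
  have hi' : IsIntegral ℤ ((ζ⁻¹ : ℂˣ) : ℂ) := IsIntegral.of_pow hpos (by
    rw [Units.val_inv_eq_inv_val, inv_pow, h1, inv_one]; exact isIntegral_one)
  have hm : ∀ z : ℂ, IsIntegral ℤ z → z ∈ NInt N := fun z hz => ⟨0, by simpa using hz⟩
  refine ⟨⟨⟨ζ, hm _ hi⟩, ⟨((ζ⁻¹ : ℂˣ) : ℂ), hm _ hi'⟩, ?_, ?_⟩, rfl⟩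
  · apply Subtype.ext; simp
  · apply Subtype.ext; simp

theorem natCast_isUnit_NInt (N : ℕ) [NeZero N] : IsUnit ((N : ℕ) : NInt N) := by
  have hN : (N : ℂ) ≠ 0 := by exact_mod_cast NeZero.ne N
  have h : ((N : ℂ))⁻¹ ∈ NInt N := ⟨1, by
    rw [pow_one, mul_inv_cancel₀ hN]; exact isIntegral_one⟩
  refine IsUnit.of_mul_eq_one ⟨_, h⟩ ?_
  apply Subtype.ext
  simp [hN]

/-- reduction of a primitive `N`-th root of unity stays primitive. -/
theorem isPrimitiveRoot_map_NInt (N : ℕ) [NeZero N] {k : Type*} [Field k] (π : NInt N →+* k)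
    (z : (NInt N)ˣ) (hz : IsPrimitiveRoot ((z : NInt N) : ℂ) N) :
    IsPrimitiveRoot (Units.map (π : NInt N →* k) z) N := by
  have hNk : NeZero ((N : ℕ) : k) := ⟨by
    have := (natCast_isUnit_NInt N).map π
    rw [map_natCast] at this
    exact this.ne_zero⟩
  rw [← IsPrimitiveRoot.coe_units_iff, ← Polynomial.isRoot_cyclotomic_iff]
  have h1 : IsRoot (cyclotomic N ℂ) ((z : NInt N) : ℂ) := by
    rw [Polynomial.isRoot_cyclotomic_iff]; exact hz
  have h2 : IsRoot (cyclotomic N (NInt N)) (z : NInt N) := by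
    rw [IsRoot.def]
    apply Subtype.val_injective
    have h3 : ((eval (z : NInt N) (cyclotomic N (NInt N)) : NInt N) : ℂ) =
        eval ((z : NInt N) : ℂ) ((cyclotomic N (NInt N)).map (NInt N).subtype) := by
      rw [eval_map]
      exact (Polynomial.eval₂_at_apply (NInt N).subtype (z : NInt N)).symm
    rw [h3, map_cyclotomic]
    exact h1
  have h4 := congrArg π h2
  rw [map_zero, ← eval₂_at_apply, ← eval_map, map_cyclotomic] at h4
  exact h4

/-- rotation commutes with reduction. -/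
theorem coeffMap_rot (N : ℕ) {k : Type*} [Field k] (π : NInt N →+* k) (ζ : ℂˣ)
    (z : (NInt N)ˣ) (hz : ((z : NInt N) : ℂ) = (ζ : ℂ)) (x y : LaurentSeries (NInt N))
    (h : coeffMap (NInt N).subtype y = rot ζ (coeffMap (NInt N).subtype x)) :
    coeffMap π y = rot (Units.map (π : NInt N →* k) z) (coeffMap π x) := by
  ext n
  rw [rot_coeff, coeffMap_coeff, coeffMap_coeff]
  have h1 := congrArg (fun s => HahnSeries.coeff s n) h
  simp only [rot_coeff, coeffMap_coeff] at h1
  have hzn : (((z ^ n : (NInt N)ˣ) : NInt N) : ℂ) = ((ζ ^ n : ℂˣ) : ℂ) := by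
    have h2 : Units.map ((NInt N).subtype : NInt N →* ℂ) z = ζ := Units.ext hz
    rw [← h2, ← map_zpow]
    rfl
  have h3 : y.coeff n = ((z ^ n : (NInt N)ˣ) : NInt N) * x.coeff n := by
    apply Subtype.val_injective
    rw [Subring.coe_mul, hzn]
    exact h1
  rw [h3, map_mul, ← map_zpow]
  rfl

section main

variable {N : ℕ} [NeZero N] {u : LaurentSeries ℤ} {ι : Type} [Fintype ι]
  [DecidableEq ι] {c₀ : ι} {U : ι → LaurentSeries ℂ} {H : ℕ → ι → LaurentSeries ℂ}

/-- Reduction of an extended root family modulo a ring homomorphism `NInt N →+* k`. -/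
theorem exists_redFamily (h : IsRootFamily N u c₀ U H) (hE : IsRootFamilyExt N c₀ U (H N))
    (hHint : ∀ d, d ∣ N → ∀ c k, (H d c).coeff k ∈ NInt N)
    (g : ι → ι) (ζ : ℂˣ) (hζ : IsPrimitiveRoot ζ N)
    (hrotU : ∀ c, U (g c) = rot ζ (U c))
    (hrotH : ∀ d, d ∣ N → ∀ c, H d (g c) = rot ζ (H d c))
    {k : Type*} [Field k] (π : NInt N →+* k) :
    ∃ (Ub : ι → LaurentSeries k) (Hb : ℕ → ι → LaurentSeries k) (ζb : kˣ),
      IsRedFamily N k u c₀ Ub Hb ∧ IsPrimitiveRoot ζb N ∧
      (∀ c, Ub (g c) = rot ζb (Ub c)) ∧ (∀ d, d ∣ N → ∀ c, Hb d (g c) = rot ζb (Hb d c)) := by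
  set O : Subring ℂ := NInt N with hO
  have hinj : Function.Injective (coeffMap O.subtype) :=
    coeffMap_injective _ Subtype.val_injective
  have hJ : coeffMap O.subtype (qExpand O N (jqModC O)) = jN N := coeffMap_qExpand_jqModC _ N
  choose U' hU' using fun c => exists_coeffMap_subtype O (U c) (h.U_int c)
  choose V' hV' using fun c => exists_coeffMap_subtype O (U c)⁻¹ (h.Uinv_int c)
  have hH'ex : ∀ (d : ℕ) (c : ι), ∃ y : LaurentSeries O, d ∣ N → coeffMap O.subtype y = H d c := by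
    intro d c
    by_cases hd : d ∣ N
    · obtain ⟨y, hy⟩ := exists_coeffMap_subtype O (H d c) (hHint d hd c)
      exact ⟨y, fun _ => hy⟩
    · exact ⟨0, fun h => absurd h hd⟩
  choose H' hH' using hH'ex
  have hUV : ∀ c, U' c * V' c = 1 := by
    intro c
    apply hinj
    rw [map_mul, hU', hV', map_one, mul_inv_cancel₀ (h.U_ne c)]
  have hUVb : ∀ c, coeffMap π (U' c) * coeffMap π (V' c) = 1 := by
    intro c
    rw [← map_mul, hUV, map_one]
  have hUb_ne : ∀ c, coeffMap π (U' c) ≠ 0 := fun c => left_ne_zero_of_mul_eq_one (hUVb c)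
  have hVb_ne : ∀ c, coeffMap π (V' c) ≠ 0 := fun c => right_ne_zero_of_mul_eq_one (hUVb c)
  have hinvb : ∀ c, (coeffMap π (U' c))⁻¹ = coeffMap π (V' c) := fun c =>
    inv_eq_of_mul_eq_one_right (hUVb c)
  -- a general transfer principle
  have transfer : ∀ (x : LaurentSeries O) (P : ℂ[X]), coeffMap O.subtype x = aeval (jN N) P →
      ∃ Q : k[X], coeffMap π x = aeval (qExpand k N (jqModC k)) Q := by
    intro x P hx
    obtain ⟨P', hP'⟩ := exists_lift_of_aeval_jN N O P (by
      intro j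
      rw [← hx]
      exact (x.coeff j).2)
    refine ⟨P'.map π, ?_⟩
    have h1 : x = aeval (qExpand O N (jqModC O)) P' := by
      apply hinj
      rw [hx, coeffMap_aeval, hJ, hP']
    rw [h1, coeffMap_aeval, coeffMap_qExpand_jqModC]
  obtain ⟨z, hz⟩ := exists_unit_NInt N ζ hζ.pow_eq_one
  have hzprim : IsPrimitiveRoot ((z : NInt N) : ℂ) N := by
    rw [hz, IsPrimitiveRoot.coe_units_iff]; exact hζ
  refine ⟨fun c => coeffMap π (U' c), fun d c => coeffMap π (H' d c),
    Units.map (π : NInt N →* k) z, ?_, isPrimitiveRoot_map_NInt N π z hzprim, ?_, ?_⟩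
  · refine
      { U_c₀ := ?_
        U_ne := hUb_ne
        order_neg := ?_
        charpoly_coeff := ?_
        prod_inv := ?_
        H_c₀ := ?_
        lagrange_coeff := ?_
        H_top := ?_
        charpolyH_coeff := ?_
        lagrangeU_coeff := ?_ }
    · have h1 : U' c₀ = qExpand O N (castLS O u) := by
        apply hinj
        rw [hU', h.U_c₀, coeffMap_qExpand, coeffMap_castLS]
      show coeffMap π (U' c₀) = _
      rw [h1, coeffMap_qExpand, coeffMap_castLS]
    · intro c hc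
      have h1 : (U c).order + ((U c)⁻¹).order = 0 := by
        rw [← HahnSeries.order_mul (h.U_ne c) (inv_ne_zero (h.U_ne c)),
          mul_inv_cancel₀ (h.U_ne c), HahnSeries.order_one]
      have h2 : 0 < ((U c)⁻¹).order := by linarith [h.order_neg c hc]
      have h3 : 0 < (coeffMap π (V' c)).order := by
        by_contra hle
        have hle' : (coeffMap π (V' c)).order < ((U c)⁻¹).order :=
          lt_of_le_of_lt (not_lt.1 hle) h2
        have h4 : ((U c)⁻¹).coeff (coeffMap π (V' c)).order = 0 :=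
          HahnSeries.coeff_eq_zero_of_lt_order hle'
        have h5 : (V' c).coeff (coeffMap π (V' c)).order = 0 := by
          apply Subtype.val_injective
          have := congrArg (fun z => HahnSeries.coeff z (coeffMap π (V' c)).order) (hV' c)
          simp only [coeffMap_coeff] at this
          rw [h4] at this
          exact this
        have h6 : (coeffMap π (V' c)).coeff (coeffMap π (V' c)).order = 0 := by
          rw [coeffMap_coeff, h5, map_zero]
        exact hVb_ne c (HahnSeries.coeff_order_eq_zero.1 h6)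
      have h7 : (coeffMap π (U' c)).order + (coeffMap π (V' c)).order = 0 := by
        rw [← HahnSeries.order_mul (hUb_ne c) (hVb_ne c), hUVb, HahnSeries.order_one]
      show (coeffMap π (U' c)).order < 0
      linarith
    · intro i
      obtain ⟨P, hP⟩ := h.charpoly_coeff i
      obtain ⟨Q, hQ⟩ := transfer ((∏ c, (X - C (U' c))).coeff i) P (by
        rw [← coeff_map, map_prod_X_sub_C, ← hP]
        simp only [hU'])
      refine ⟨Q, ?_⟩
      rw [← hQ, ← coeff_map, map_prod_X_sub_C]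
    · obtain ⟨P, hP⟩ := h.prod_inv
      obtain ⟨Q, hQ⟩ := transfer (∏ c, V' c) P (by
        rw [map_prod, ← hP]
        simp only [hV'])
      refine ⟨Q, ?_⟩
      rw [← hQ, map_prod]
      exact Finset.prod_congr rfl fun c _ => hinvb c
    · intro d _ hd
      have h1 : H' d c₀ = qExpand O N (qExpand O d (jqModC O)) := by
        apply hinj
        rw [hH' d c₀ hd, h.H_c₀ d hd, coeffMap_qExpand, coeffMap_qExpand, coeffMap_jqModC]
      show coeffMap π (H' d c₀) = _
      rw [h1, coeffMap_qExpand, coeffMap_qExpand, coeffMap_jqModC]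
    · intro d hd i
      obtain ⟨P, hP⟩ := h.lagrange_coeff d hd i
      obtain ⟨Q, hQ⟩ := transfer
        ((∑ c, C (H' d c) * ∏ c' ∈ Finset.univ.erase c, (X - C (U' c'))).coeff i) P (by
        rw [← coeff_map, map_lagrange, ← hP]
        simp only [hU', hH' d _ hd])
      refine ⟨Q, ?_⟩
      rw [← hQ, ← coeff_map, map_lagrange]
    · intro c hc
      have h1 : (H' N c).coeff (-((N : ℤ) ^ 2)) = 0 := by
        apply Subtype.val_injective
        have := congrArg (fun z => HahnSeries.coeff z (-((N : ℤ) ^ 2))) (hH' N c dvd_rfl)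
        simp only [coeffMap_coeff] at this
        rw [hE.H_top c hc] at this
        exact this
      show (coeffMap π (H' N c)).coeff _ = 0
      rw [coeffMap_coeff, h1, map_zero]
    · intro i
      obtain ⟨P, hP⟩ := hE.charpolyH_coeff i
      obtain ⟨Q, hQ⟩ := transfer ((∏ c, (X - C (H' N c))).coeff i) P (by
        rw [← coeff_map, map_prod_X_sub_C, ← hP]
        simp only [hH' N _ dvd_rfl])
      refine ⟨Q, ?_⟩
      rw [← hQ, ← coeff_map, map_prod_X_sub_C]
    · intro i
      obtain ⟨P, hP⟩ := hE.lagrangeU_coeff i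
      obtain ⟨Q, hQ⟩ := transfer
        ((∑ c, C (U' c) * ∏ c' ∈ Finset.univ.erase c, (X - C (H' N c'))).coeff i) P (by
        rw [← coeff_map, map_lagrange, ← hP]
        simp only [hU', hH' N _ dvd_rfl])
      refine ⟨Q, ?_⟩
      rw [← hQ, ← coeff_map, map_lagrange]
  · intro c
    exact coeffMap_rot N π ζ z hz (U' c) (U' (g c)) (by rw [hU', hU', hrotU])
  · intro d hd c
    exact coeffMap_rot N π ζ z hz (H' d c) (H' d (g c)) (by
      rw [hH' d _ hd, hH' d _ hd, hrotH d hd])

end main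

end Fermat.Agent.RED.Cusp
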