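import Fermat.Agent.RED.FF.Param
import Fermat.Agent.RED.Cusp.Lagrange

/-!
# RED/Cusp: a function field generated by `j` and one element with a full set of conjugates
-/

set_option autoImplicit false
set_option linter.unusedSectionVars false
noncomputable section
open Polynomial IntermediateField AlgebraicCurve
open scoped IntermediateField.algebraAdjoinAdjoin
open Fermat.Agent.S24

namespace Fermat.Agent.RED.Cusp

variable {k F E : Type*} [Field k] [Field F] [Field E] [Algebra k F] [Algebra k E]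
  {ι : Type*} [Fintype ι] [DecidableEq ι]

/-- `F = k(j, a)`, embedded in `E` by `φ`; `x c` is a full set of conjugates of `φ a` over
`k(φ j)`, with `φ a = x c₀` a simple root. -/
structure IsSimpleData (φ : F →ₐ[k] E) (j a : F) (c₀ : ι) (x : ι → E) : Prop where
  x_c₀ : x c₀ = φ a
  ne : ∀ c, c ≠ c₀ → x c₀ ≠ x c
  coeff : ∀ i, ∃ P : k[X], (∏ c, (X - C (x c))).coeff i = aeval (φ j) P
  indep : ∀ f : Fin (Fintype.card ι) → k[X],
    ∑ i, aeval (φ j) (f i) * x c₀ ^ (i : ℕ) = 0 → ∀ i, f i = 0
  gen : IntermediateField.adjoin k {j, a} = ⊤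

namespace IsSimpleData

variable {φ : F →ₐ[k] E} {j a : F} {c₀ : ι} {x : ι → E}

theorem card_pos (_h : IsSimpleData φ j a c₀ x) : 0 < Fintype.card ι :=
  Fintype.card_pos_iff.2 ⟨c₀⟩

theorem transcendental (h : IsSimpleData φ j a c₀ x) : Transcendental k j := by
  rw [transcendental_iff]
  intro P hP
  have h1 : aeval (φ j) P = 0 := by rw [aeval_algHom_apply, hP, map_zero]
  have := h.indep (fun i => if i = ⟨0, h.card_pos⟩ then P else 0) (by
    apply Finset.sum_eq_zero
    intro i _
    by_cases hi : i = ⟨0, h.card_pos⟩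
    · simp [hi, h1]
    · simp [hi]) ⟨0, h.card_pos⟩
  simpa using this

/-- the ring hom `k(j) → E`. -/
def psi (φ : F →ₐ[k] E) (j : F) : k⟮j⟯ →+* E := φ.toRingHom.comp (algebraMap k⟮j⟯ F)

theorem psi_aeval_gen (P : k[X]) : psi φ j (aeval (AdjoinSimple.gen k j) P) = aeval (φ j) P := by
  show φ (algebraMap k⟮j⟯ F (aeval (AdjoinSimple.gen k j) P)) = _
  rw [← aeval_algebraMap_apply, AdjoinSimple.algebraMap_gen, aeval_algHom_apply]

theorem exists_poly (h : IsSimpleData φ j a c₀ x) :
    ∃ Ψ : (k⟮j⟯)[X], Ψ.map (psi φ j) = ∏ c, (X - C (x c)) := by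
  have : (∏ c, (X - C (x c))) ∈ lifts (psi φ j) := (lifts_iff_coeff_lifts _).2 (fun i => by
    obtain ⟨P, hP⟩ := h.coeff i
    exact ⟨aeval (AdjoinSimple.gen k j) P, by rw [hP]; exact psi_aeval_gen P⟩)
  exact (mem_lifts _).1 this

theorem linearIndependent_pow (h : IsSimpleData φ j a c₀ x) :
    LinearIndependent k⟮j⟯ (fun i : Fin (Fintype.card ι) => a ^ (i : ℕ)) := by
  rw [← LinearIndependent.iff_fractionRing (Algebra.adjoin k {j}) k⟮j⟯]
  rw [Fintype.linearIndependent_iff]
  intro g hg
  have hg' : ∀ i, ∃ p : k[X], aeval j p = (g i : F) := by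
    intro i
    have h' : ∀ z : F, z ∈ Algebra.adjoin k {j} → ∃ p : k[X], aeval j p = z := by
      intro z hz
      rw [Algebra.adjoin_singleton_eq_range_aeval] at hz
      exact hz
    exact h' _ (g i).2
  choose p hp using hg'
  have h1 : ∑ i, aeval j (p i) * a ^ (i : ℕ) = 0 := by
    rw [← hg]
    refine Finset.sum_congr rfl fun i _ => ?_
    rw [hp i]
    rfl
  have h2 := h.indep p (by
    have := congrArg φ h1
    rw [map_sum, map_zero] at this
    rw [← this]
    refine Finset.sum_congr rfl fun i _ => ?_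
    rw [map_mul, map_pow, h.x_c₀, aeval_algHom_apply])
  intro i
  apply Subtype.ext
  rw [← hp i, h2]
  simp

theorem minpoly_eq (h : IsSimpleData φ j a c₀ x) {Ψ : (k⟮j⟯)[X]}
    (hΨ : Ψ.map (psi φ j) = ∏ c, (X - C (x c))) : Ψ = minpoly k⟮j⟯ a := by
  have hinj : Function.Injective (psi φ j) := (psi φ j).injective
  have hmonicE : (∏ c, (X - C (x c))).Monic := monic_prod_of_monic _ _ fun c _ => monic_X_sub_C _
  have hmonic : Ψ.Monic := monic_of_injective hinj (by rw [hΨ]; exact hmonicE)
  have hdeg : Ψ.natDegree = Fintype.card ι := by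
    rw [← natDegree_map_eq_of_injective hinj, hΨ, natDegree_prod_of_monic _ _
      (fun c _ => monic_X_sub_C _)]
    simp
  have hroot : aeval a Ψ = 0 := by
    apply φ.toRingHom.injective
    rw [map_zero]
    show φ (aeval a Ψ) = 0
    have : φ (aeval a Ψ) = eval (φ a) (Ψ.map (psi φ j)) := by
      rw [eval_map, aeval_def, ← AlgHom.coe_toRingHom, hom_eval₂]
      rfl
    rw [this, hΨ, eval_prod]
    exact Finset.prod_eq_zero (Finset.mem_univ c₀) (by rw [h.x_c₀]; simp)
  refine minpoly.unique' _ _ hmonic hroot ?_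
  intro q hq
  by_cases hq0 : q = 0
  · exact Or.inl hq0
  right
  intro hqa
  apply hq0
  have hqdeg : q.natDegree < Fintype.card ι := by
    rw [← hdeg]
    exact natDegree_lt_natDegree hq0 hq
  have hli := h.linearIndependent_pow
  rw [Fintype.linearIndependent_iff] at hli
  have h1 := hli (fun i => q.coeff (i : ℕ)) (by
    rw [aeval_eq_sum_range' hqdeg] at hqa
    rw [← hqa, Finset.sum_range])
  apply Polynomial.ext
  intro i
  rw [coeff_zero]
  by_cases hi : i < Fintype.card ι
  · exact h1 ⟨i, hi⟩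
  · exact coeff_eq_zero_of_natDegree_lt (by omega)

theorem isIntegral (h : IsSimpleData φ j a c₀ x) : IsIntegral k⟮j⟯ a := by
  obtain ⟨Ψ, hΨ⟩ := h.exists_poly
  have hinj : Function.Injective (psi φ j) := (psi φ j).injective
  have hmonicE : (∏ c, (X - C (x c))).Monic := monic_prod_of_monic _ _ fun c _ => monic_X_sub_C _
  have hmonic : Ψ.Monic := monic_of_injective hinj (by rw [hΨ]; exact hmonicE)
  by_contra hcon
  have h1 := h.minpoly_eq hΨ
  rw [minpoly.eq_zero hcon] at h1
  exact hmonic.ne_zero h1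

theorem map_minpoly (h : IsSimpleData φ j a c₀ x) :
    (minpoly k⟮j⟯ a).map (psi φ j) = ∏ c, (X - C (x c)) := by
  obtain ⟨Ψ, hΨ⟩ := h.exists_poly
  rw [← h.minpoly_eq hΨ, hΨ]

theorem natDegree_minpoly (h : IsSimpleData φ j a c₀ x) :
    (minpoly k⟮j⟯ a).natDegree = Fintype.card ι := by
  rw [← natDegree_map_eq_of_injective (psi φ j).injective, h.map_minpoly,
    natDegree_prod_of_monic _ _ (fun c _ => monic_X_sub_C _)]
  simp

theorem separable_minpoly (h : IsSimpleData φ j a c₀ x) : (minpoly k⟮j⟯ a).Separable := by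
  rw [separable_iff_derivative_ne_zero (minpoly.irreducible h.isIntegral)]
  intro h0
  have h1 := congrArg (fun p => eval (x c₀) (p.map (psi φ j))) h0
  simp only [Polynomial.map_zero, eval_zero] at h1
  rw [← derivative_map, h.map_minpoly, eval_derivative_prod_X_sub_C] at h1
  exact prod_erase_ne_zero x c₀ h.ne h1

theorem injective (h : IsSimpleData φ j a c₀ x) : Function.Injective x := by
  rw [← separable_prod_X_sub_C_iff, ← h.map_minpoly, separable_map]
  exact h.separable_minpoly

theorem adjoin_eq_top (h : IsSimpleData φ j a c₀ x) : (k⟮j⟯)⟮a⟯ = ⊤ := by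
  rw [← restrictScalars_eq_top_iff (K := k), adjoin_adjoin_left, ← h.gen]
  rfl

theorem algebra_adjoin_eq_top (h : IsSimpleData φ j a c₀ x) : Algebra.adjoin k⟮j⟯ {a} = ⊤ := by
  rw [← adjoin_simple_toSubalgebra_of_isAlgebraic h.isIntegral.isAlgebraic, h.adjoin_eq_top]
  rfl

/-- the power basis `1, a, …, a^(n-1)`. -/
def powerBasis (h : IsSimpleData φ j a c₀ x) : PowerBasis k⟮j⟯ F :=
  PowerBasis.ofAdjoinEqTop h.isIntegral h.algebra_adjoin_eq_top

theorem finiteDimensional (h : IsSimpleData φ j a c₀ x) : FiniteDimensional k⟮j⟯ F :=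
  h.powerBasis.finite

theorem finrank_eq (h : IsSimpleData φ j a c₀ x) :
    Module.finrank k⟮j⟯ F = Fintype.card ι := by
  rw [h.powerBasis.finrank, ← h.natDegree_minpoly]
  rfl

theorem isSeparable (h : IsSimpleData φ j a c₀ x) : Algebra.IsSeparable k⟮j⟯ F := by
  have h1 : Algebra.IsSeparable k⟮j⟯ (k⟮j⟯)⟮a⟯ :=
    (isSeparable_adjoin_simple_iff_isSeparable _ _).2 h.separable_minpoly
  rw [h.adjoin_eq_top] at h1
  exact AlgEquiv.Algebra.isSeparable (topEquiv (F := k⟮j⟯) (E := F))

theorem isSepParam (h : IsSimpleData φ j a c₀ x) : IsSepParam k j where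
  transcendental := h.transcendental
  finite := h.finiteDimensional
  separable := h.isSeparable

/-- the conjugate embeddings. -/
theorem exists_embeddings (h : IsSimpleData φ j a c₀ x) :
    ∃ σ : ι → F →ₐ[k] E, (∀ c, σ c j = φ j) ∧ (∀ c, σ c a = x c) := by
  let _ : Algebra k⟮j⟯ E := (psi φ j).toAlgebra
  have : IsScalarTower k k⟮j⟯ E := IsScalarTower.of_algebraMap_eq (fun r => by
    show algebraMap k E r = φ (algebraMap k⟮j⟯ F (algebraMap k k⟮j⟯ r))
    rw [← IsScalarTower.algebraMap_apply k k⟮j⟯ F, AlgHom.commutes])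
  have hroot : ∀ c, aeval (x c) (minpoly k⟮j⟯ h.powerBasis.gen) = 0 := by
    intro c
    have hg : h.powerBasis.gen = a := PowerBasis.ofAdjoinEqTop_gen _ _
    rw [hg, aeval_def]
    show eval₂ (psi φ j) (x c) _ = 0
    rw [← eval_map, h.map_minpoly, eval_prod]
    exact Finset.prod_eq_zero (Finset.mem_univ c) (by simp)
  refine ⟨fun c => (h.powerBasis.lift (x c) (hroot c)).restrictScalars k, ?_, ?_⟩
  · intro c
    show h.powerBasis.lift (x c) (hroot c) j = φ j
    have h1 := (h.powerBasis.lift (x c) (hroot c)).commutes (AdjoinSimple.gen k j)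
    rw [AdjoinSimple.algebraMap_gen] at h1
    rw [h1]
    show φ (algebraMap k⟮j⟯ F (AdjoinSimple.gen k j)) = φ j
    rw [AdjoinSimple.algebraMap_gen]
  · intro c
    show h.powerBasis.lift (x c) (hroot c) a = x c
    have hg : h.powerBasis.gen = a := PowerBasis.ofAdjoinEqTop_gen _ _
    have h1 := PowerBasis.lift_gen h.powerBasis (x c) (hroot c)
    rwa [hg] at h1

/-- two ring homs out of `F` agreeing on `k`, `j`, `a` are equal. -/
theorem ringHom_ext (h : IsSimpleData φ j a c₀ x) {M : Type*} [Field M] (s t : F →+* M)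
    (hk : ∀ r : k, s (algebraMap k F r) = t (algebraMap k F r)) (hj : s j = t j)
    (ha : s a = t a) : s = t := by
  have h1 : (IntermediateField.adjoin k {j, a}).toSubfield ≤ s.eqLocusField t := by
    show Subfield.closure _ ≤ _
    rw [Subfield.closure_le]
    rintro y (⟨r, rfl⟩ | rfl | rfl)
    · exact hk r
    · exact hj
    · exact ha
  rw [h.gen] at h1
  ext f
  exact h1 (show f ∈ (⊤ : IntermediateField k F) from trivial)

end IsSimpleData

end Fermat.Agent.RED.Cusp
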